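/-
P-MW row 693 (MW-MINK), helper73.

`MinkStatement` for every datum, from `SmallVectorStatement`, `NormStatement`, `HAddStatement`
and the basic facts `BasicStatement` (row MW-BASIC).

Proof: with `m = d + l + g - 1` the space `L(m∞ - D_I) = I ∩ W m` has dimension `l`
(Riemann-Roch over `ℚ`).  A small vector of its coordinate matrix is the coordinate vector of
some `0 ≠ a ∈ I ∩ W m`; write `(a) = I * J`.  Then `J` represents the inverse class, has degree
`pole a - d ≤ l + g - 1`, and `h_∞(J) ≤ h_∞((a)) - h_∞(I) + O(1) ≤ h(a) - h_∞(I) + O(1)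
≤ G_m(I) / l - h_∞(I) + O(1)`.
-/
import Fermat.Agent.H92.MW.BasicInterfaces

set_option autoImplicit false

noncomputable section

open Module TensorProduct
open scoped nonZeroDivisors

namespace Fermat.Agent.H73.MWMink

open Fermat.Agent.H92.MW

/-- The rows of the coordinate matrix of a subspace are linearly independent. -/
theorem coordMatrix_row_linearIndependent {E : Type*} [AddCommGroup E] [Module ℚ E]
    [Module.Finite ℚ E] (U : Submodule ℚ E) :
    LinearIndependent ℚ (coordMatrix U).row := by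
  have h := (Module.finBasis ℚ U).linearIndependent
  have hker : ((Module.finBasis ℚ E).equivFun.toLinearMap ∘ₗ U.subtype).ker = ⊥ := by
    rw [LinearMap.ker_eq_bot]
    exact (Module.finBasis ℚ E).equivFun.injective.comp U.injective_subtype
  have h2 := h.map' _ hker
  exact h2

/-- `c ᵥ* coordMatrix U` is the coordinate vector of `∑ i, c i • b i`. -/
theorem vecMul_coordMatrix {E : Type*} [AddCommGroup E] [Module ℚ E]
    [Module.Finite ℚ E] (U : Submodule ℚ E) (c : Fin (finrank ℚ U) → ℚ) :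
    Matrix.vecMul c (coordMatrix U) =
      fun j => (Module.finBasis ℚ E).repr
        ((∑ i, c i • Module.finBasis ℚ U i : U) : E) j := by
  funext j
  simp only [Matrix.vecMul, dotProduct, coordMatrix]
  rw [Submodule.coe_sum, map_sum, Finsupp.finsetSum_apply]
  refine Finset.sum_congr rfl fun i _ => ?_
  rw [Submodule.coe_smul, map_smul, Finsupp.smul_apply, smul_eq_mul]

/-- A nonzero coefficient vector gives a nonzero element of the subspace. -/
theorem sum_smul_finBasis_ne_zero {E : Type*} [AddCommGroup E] [Module ℚ E]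
    [Module.Finite ℚ E] (U : Submodule ℚ E) (c : Fin (finrank ℚ U) → ℚ) (hc : c ≠ 0) :
    (∑ i, c i • Module.finBasis ℚ U i : U) ≠ 0 := by
  intro h
  apply hc
  funext i
  exact Fintype.linearIndependent_iff.1 (Module.finBasis ℚ U).linearIndependent c h i

/-- **Small vector in a subspace**: a nonzero subspace `U` of `E` contains a nonzero vector whose
coordinate vector has height at most `h(U) / dim U + log (dim U)`. -/
theorem exists_small_vector (hSV : SmallVectorStatement) {E : Type*} [AddCommGroup E]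
    [Module ℚ E] [Module.Finite ℚ E] (U : Submodule ℚ E) (hU : 1 ≤ finrank ℚ U) :
    ∃ v : U, v ≠ 0 ∧
      Height.logHeight (fun j => (Module.finBasis ℚ E).repr (v : E) j) ≤
        subspaceHeight U / (finrank ℚ U : ℕ) + Real.log (finrank ℚ U : ℕ) := by
  obtain ⟨c, hc, hcH⟩ := hSV _ _ (coordMatrix U) hU (coordMatrix_row_linearIndependent U)
  refine ⟨∑ i, c i • Module.finBasis ℚ U i, sum_smul_finBasis_ne_zero U c hc, ?_⟩
  rw [← vecMul_coordMatrix]
  exact hcH

variable {R : Type} [CommRing R] [Algebra ℚ R] [IsDedekindDomain R]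

/-- **MINK** from `BasicStatement`, `SmallVectorStatement`, `NormStatement`, `HAddStatement`. -/
theorem mink (𝒞 : MWDatum R) (hB : BasicStatement 𝒞) (hSV : SmallVectorStatement)
    (hN : NormStatement 𝒞) (hH : 𝒞.HAddStatement) : 𝒞.MinkStatement := by
  obtain ⟨-, hRR, -, hdegP, hdegM, -⟩ := hB
  intro l d hl hlg
  obtain ⟨C₁, hC₁⟩ := hH (max d (l + 𝒞.g - 1))
  obtain ⟨C₂, hC₂⟩ := hN (d + l + 𝒞.g - 1)
  have he : (0 : ℝ) < 𝒞.e := by exact_mod_cast 𝒞.e_pos
  have hl' : (0 : ℝ) < l := by exact_mod_cast hl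
  refine ⟨Real.log l + C₂ / 𝒞.e + C₁, fun I hI => ?_⟩
  have hI0 : (I : Ideal R) ≠ ⊥ := mem_nonZeroDivisors_iff_ne_zero.1 I.2
  -- dimension of the Riemann-Roch space
  have hdim : finrank ℚ (𝒞.rrSpace (d + l + 𝒞.g - 1) I) = l := by
    have := hRR (I : Ideal R) (d + l + 𝒞.g - 1) hI0 (by rw [hI]; omega)
    rw [hI] at this
    omega
  -- the small vector
  obtain ⟨v, hv0, hvH⟩ := exists_small_vector hSV (𝒞.rrSpace (d + l + 𝒞.g - 1) I)
    (by rw [hdim]; exact hl)
  rw [hdim] at hvH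
  have ha0 : (v : 𝒞.W (d + l + 𝒞.g - 1)) ≠ 0 := fun h => hv0 (Subtype.ext h)
  have haR0 : ((v : 𝒞.W (d + l + 𝒞.g - 1)) : R) ≠ 0 := fun h => ha0 (Subtype.ext h)
  have haI : ((v : 𝒞.W (d + l + 𝒞.g - 1)) : R) ∈ (I : Ideal R) := v.2
  -- the height of `a`
  have hha : Height.logHeight (coordVec 𝒞 (d + l + 𝒞.g - 1) (v : 𝒞.W (d + l + 𝒞.g - 1))) ≤
      𝒞.gH (d + l + 𝒞.g - 1) I / l + Real.log l := hvH
  -- the complementary ideal
  have hle : Ideal.span {((v : 𝒞.W (d + l + 𝒞.g - 1)) : R)} ≤ (I : Ideal R) :=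
    (Ideal.span_singleton_le_iff_mem _).2 haI
  obtain ⟨J, hJ⟩ := Ideal.dvd_iff_le.2 hle
  have hspan0 : Ideal.span {((v : 𝒞.W (d + l + 𝒞.g - 1)) : R)} ≠ ⊥ := by
    rw [Ne, Ideal.span_singleton_eq_bot]; exact haR0
  have hJ0 : J ≠ ⊥ := by
    rintro rfl
    apply hspan0
    rw [hJ, Ideal.mul_bot]
  have hJmem : J ∈ (Ideal R)⁰ := mem_nonZeroDivisors_iff_ne_zero.2 hJ0
  -- degrees
  have hpole : pole 𝒞 ((v : 𝒞.W (d + l + 𝒞.g - 1)) : R) ≤ d + l + 𝒞.g - 1 :=
    Nat.sInf_le (show ((v : 𝒞.W (d + l + 𝒞.g - 1)) : R) ∈ 𝒞.W (d + l + 𝒞.g - 1) from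
      (v : 𝒞.W (d + l + 𝒞.g - 1)).2)
  have hdegJ : 𝒞.deg J ≤ l + 𝒞.g - 1 := by
    have h1 := hdegP _ haR0
    have h2 := hdegM (I : Ideal R) J hI0 hJ0
    rw [← hJ, h1, hI] at h2
    omega
  refine ⟨⟨J, hJmem⟩, hdegJ, ?_, ?_⟩
  · -- the class
    apply eq_inv_of_mul_eq_one_right
    rw [← map_mul]
    have hIJ : I * ⟨J, hJmem⟩ = ⟨Ideal.span {((v : 𝒞.W (d + l + 𝒞.g - 1)) : R)},
        mem_nonZeroDivisors_iff_ne_zero.2 hspan0⟩ :=
      Subtype.ext hJ.symm
    rw [hIJ, ClassGroup.mk0_eq_one_iff]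
    exact ⟨⟨_, rfl⟩⟩
  · -- the height
    have h1 := hC₁ (I : Ideal R) J hI0 hJ0 (by rw [hI]; exact le_max_left _ _)
      (hdegJ.trans (le_max_right _ _))
    have h2 := hC₂ (v : 𝒞.W (d + l + 𝒞.g - 1)) ha0
    rw [← hJ] at h1
    have h1' := (abs_le.1 h1).1
    have h2' := (abs_le.1 h2).2
    have hq : 𝒞.qH l I = 𝒞.gH (d + l + 𝒞.g - 1) I - l * 𝒞.hInf I := by
      simp only [MWDatum.qH, hI]
    have hInfa : 𝒞.hInf (Ideal.span {((v : 𝒞.W (d + l + 𝒞.g - 1)) : R)}) ≤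
        Height.logHeight (coordVec 𝒞 (d + l + 𝒞.g - 1) (v : 𝒞.W (d + l + 𝒞.g - 1)))
          + C₂ / 𝒞.e := by
      unfold MWDatum.hInf
      rw [div_le_iff₀ he]
      have : (Height.logHeight (coordVec 𝒞 (d + l + 𝒞.g - 1) (v : 𝒞.W (d + l + 𝒞.g - 1)))
          + C₂ / 𝒞.e) * 𝒞.e =
          𝒞.e * Height.logHeight (coordVec 𝒞 (d + l + 𝒞.g - 1) (v : 𝒞.W (d + l + 𝒞.g - 1)))
            + C₂ := by
        field_simp
      rw [this]
      linarith
    show 𝒞.hInf J ≤ 𝒞.qH l I / l + (Real.log l + C₂ / 𝒞.e + C₁)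
    have hq' : 𝒞.qH l I / l = 𝒞.gH (d + l + 𝒞.g - 1) I / l - 𝒞.hInf I := by
      rw [hq]; field_simp
    rw [hq']
    linarith

end Fermat.Agent.H73.MWMink

end
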