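/-
P-MW row 693 (MW-MINK), helper73: `MinkStatement` with the small-vector input discharged by
helper40's landed `Fermat.Agent.H40.MW.smallVectorStatement`.
-/
import Fermat.Agent.H73.MW.Mink
import Fermat.Agent.H40.MW.Adapters

set_option autoImplicit false

namespace Fermat.Agent.H73.MWMink

open Fermat.Agent.H92.MW

variable {R : Type} [CommRing R] [Algebra ℚ R] [IsDedekindDomain R]

/-- **MINK** from `BasicStatement`, `NormStatement`, `HAddStatement` (small vector: helper40). -/
theorem mink_of_basic (𝒞 : MWDatum R) (hB : BasicStatement 𝒞)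
    (hN : NormStatement 𝒞) (hH : 𝒞.HAddStatement) : 𝒞.MinkStatement :=
  mink 𝒞 hB Fermat.Agent.H40.MW.smallVectorStatement hN hH

end Fermat.Agent.H73.MWMink
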