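/-
P-MW row 693 (MW-MINK), helper73: `MinkStatement` with `BasicStatement` (helper88),
`SmallVectorStatement` (helper40) and `HAddStatement` (helper64) discharged.
-/
import Fermat.Agent.H73.MW.MinkFinal
import Fermat.Agent.H88.MW.Basic
import Fermat.Agent.H64.MW.HAdd

set_option autoImplicit false

namespace Fermat.Agent.H73.MWMink

open Fermat.Agent.H92.MW

variable {R : Type} [CommRing R] [Algebra ℚ R] [IsDedekindDomain R]

/-- **MINK** from `NormStatement` and `HAddStatement` alone. -/
theorem mink_of_norm_hAdd (𝒞 : MWDatum R) (hN : NormStatement 𝒞) (hH : 𝒞.HAddStatement) :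
    𝒞.MinkStatement :=
  mink_of_basic 𝒞 (Fermat.Agent.H88.MW.basic 𝒞) hN hH

/-- **MINK** from `NormStatement` and `GaussGelfondStatement`. -/
theorem mink_of_norm_gaussGelfond (𝒞 : MWDatum R) (hN : NormStatement 𝒞)
    (hGG : GaussGelfondStatement) : 𝒞.MinkStatement :=
  mink_of_norm_hAdd 𝒞 hN (Fermat.Agent.H64.hAdd 𝒞 hGG)

end Fermat.Agent.H73.MWMink
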