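/-
P-MW (row 678 MW-BASIC, second seat helper73): the pole order at `∞` is a valuation,
`pole (a * b) = pole a + pole b` (clause (B3) of `BasicStatement`), and
`deg (a) = pole a` (clause (B4)) from Riemann-Roch over `ℚ` (clause (B2)).
-/
import Fermat.Agent.H92.MW.BasicInterfaces

set_option autoImplicit false

noncomputable section

open Module TensorProduct

namespace Fermat.Agent.H73.MWBasic

open Fermat.Agent.H92.MW

/-- `1 ⊗ a` lies in the base change of a subspace `W` iff `a ∈ W` (field extension). -/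
theorem one_tmul_mem_baseChange_iff {E : Type*} [AddCommGroup E] [Module ℚ E]
    (K : Type*) [Field K] [Algebra ℚ K] (W : Submodule ℚ E) (a : E) :
    (1 : K) ⊗ₜ[ℚ] a ∈ W.baseChange K ↔ a ∈ W := by
  refine ⟨fun h => ?_, Submodule.tmul_mem_baseChange_of_mem 1⟩
  by_contra ha
  obtain ⟨f, hfa, hf⟩ := Submodule.exists_le_ker_of_notMem ha
  let F : K ⊗[ℚ] E →ₗ[K] K :=
    (TensorProduct.AlgebraTensorModule.rid ℚ K K).toLinearMap ∘ₗ f.baseChange K
  have hF1 : ∀ x : E, F ((1 : K) ⊗ₜ[ℚ] x) = algebraMap ℚ K (f x) := by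
    intro x
    simp only [F, LinearMap.comp_apply, LinearMap.baseChange_tmul, LinearEquiv.coe_coe,
      TensorProduct.AlgebraTensorModule.rid_tmul]
    rw [Algebra.smul_def, mul_one]
  have hF : W.baseChange K ≤ LinearMap.ker F := by
    rw [Submodule.baseChange_eq_span, Submodule.span_le]
    rintro _ ⟨w, hw, rfl⟩
    rw [SetLike.mem_coe, LinearMap.mem_ker]
    show F ((1 : K) ⊗ₜ[ℚ] w) = 0
    rw [hF1, LinearMap.mem_ker.1 (hf hw), map_zero]
  have h0 := LinearMap.mem_ker.1 (hF h)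
  rw [hF1] at h0
  exact hfa ((map_eq_zero _).1 h0)

variable {R : Type} [CommRing R] [Algebra ℚ R] [IsDedekindDomain R] (𝒞 : MWDatum R)

theorem mem_W_pole (a : R) : a ∈ 𝒞.W (pole 𝒞 a) :=
  Nat.sInf_mem (s := {m : ℕ | a ∈ 𝒞.W m}) (𝒞.W_exhaust a)

theorem pole_le_iff {a : R} {m : ℕ} : pole 𝒞 a ≤ m ↔ a ∈ 𝒞.W m :=
  ⟨fun h => 𝒞.W_mono h (mem_W_pole 𝒞 a), fun h => Nat.sInf_le h⟩

theorem lt_pole_iff {a : R} {m : ℕ} : m < pole 𝒞 a ↔ a ∉ 𝒞.W m := by
  rw [← not_le, pole_le_iff]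

/-- elements of pole order `0` are constants -/
theorem exists_algebraMap_of_pole_eq_zero {a : R} (h : pole 𝒞 a = 0) :
    ∃ c : ℚ, algebraMap ℚ R c = a := by
  have := mem_W_pole 𝒞 a
  rw [h, 𝒞.W_zero] at this
  exact Submodule.mem_one.1 this

theorem pole_algebraMap_mul {c : ℚ} (hc : c ≠ 0) (b : R) :
    pole 𝒞 (algebraMap ℚ R c * b) = pole 𝒞 b := by
  apply le_antisymm
  · rw [pole_le_iff, ← Algebra.smul_def]
    exact Submodule.smul_mem _ _ (mem_W_pole 𝒞 b)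
  · rw [pole_le_iff]
    have h := mem_W_pole 𝒞 (algebraMap ℚ R c * b)
    have h2 := Submodule.smul_mem _ c⁻¹ h
    have h3 : c⁻¹ • (algebraMap ℚ R c * b) = b := by
      rw [← Algebra.smul_def, smul_smul, inv_mul_cancel₀ hc, one_smul]
    rwa [h3] at h2

/-- **(B3)** the pole order is additive. -/
theorem pole_mul (a b : R) (ha : a ≠ 0) (hb : b ≠ 0) :
    pole 𝒞 (a * b) = pole 𝒞 a + pole 𝒞 b := by
  rcases Nat.eq_zero_or_pos (pole 𝒞 a) with h0 | hapos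
  · obtain ⟨c, rfl⟩ := exists_algebraMap_of_pole_eq_zero 𝒞 h0
    have hc : c ≠ 0 := by
      rintro rfl
      exact ha (map_zero _)
    rw [pole_algebraMap_mul 𝒞 hc, h0, zero_add]
  rcases Nat.eq_zero_or_pos (pole 𝒞 b) with h0 | hbpos
  · obtain ⟨c, rfl⟩ := exists_algebraMap_of_pole_eq_zero 𝒞 h0
    have hc : c ≠ 0 := by
      rintro rfl
      exact hb (map_zero _)
    rw [mul_comm, pole_algebraMap_mul 𝒞 hc, h0, add_zero]
  apply le_antisymm
  · rw [pole_le_iff]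
    exact 𝒞.W_mul _ _ (Submodule.mul_mem_mul (mem_W_pole 𝒞 a) (mem_W_pole 𝒞 b))
  · have h1 : ((1 : QQbar) ⊗ₜ[ℚ] a) ∉ (𝒞.W (pole 𝒞 a - 1)).baseChange QQbar := by
      rw [one_tmul_mem_baseChange_iff, ← lt_pole_iff]
      omega
    have h2 : ((1 : QQbar) ⊗ₜ[ℚ] b) ∉ (𝒞.W (pole 𝒞 b - 1)).baseChange QQbar := by
      rw [one_tmul_mem_baseChange_iff, ← lt_pole_iff]
      omega
    have h3 := 𝒞.bar_val _ _ _ _ h1 h2
    rw [Algebra.TensorProduct.tmul_mul_tmul, mul_one, one_tmul_mem_baseChange_iff,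
      ← lt_pole_iff] at h3
    omega

/-- the pole order of a nonzero multiple: `a * r ∈ W m ↔ r ∈ W (m - pole a)` when
`pole a ≤ m`. -/
theorem mul_mem_W_iff {a r : R} (ha : a ≠ 0) (hr : r ≠ 0) {m : ℕ} :
    a * r ∈ 𝒞.W m ↔ pole 𝒞 a + pole 𝒞 r ≤ m := by
  rw [← pole_le_iff, pole_mul 𝒞 a r ha hr]

end Fermat.Agent.H73.MWBasic

end
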